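import Fermat.Agent.Gateway.Root.Glue

/-!
helper48 (P-GATEWAY WP-ROOT).  **R1**: `n`-th roots in `MerFun`; **R2**: two elements of `MerFun`
with the same `n`-th power differ by a unique constant `n`-th root of unity.
-/

set_option autoImplicit false

open Complex UpperHalfPlane
open scoped MatrixGroups

namespace Fermat.Agent.Gateway.Root

open Fermat.Agent.S24 MerFun

/-- The constants, as a ring homomorphism `ℂ →+* MerFun`. -/
noncomputable def cstHom : ℂ →+* MerFun :=
  (algebraMap HolFun MerFun).comp (algebraMap ℂ HolFun)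

/-- The constant function `c` as an element of `MerFun`. -/
noncomputable def cst (c : ℂ) : MerFun := algebraMap HolFun MerFun (algebraMap ℂ HolFun c)

theorem cst_def (c : ℂ) : cst c = algebraMap HolFun MerFun (algebraMap ℂ HolFun c) := rfl

theorem cstHom_apply (c : ℂ) : cstHom c = cst c := rfl

theorem cst_injective : Function.Injective cst := fun _ _ h => cstHom.injective h

@[simp] theorem cst_one : cst 1 = 1 := map_one cstHom
@[simp] theorem cst_zero : cst 0 = 0 := map_zero cstHom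
theorem cst_mul (a b : ℂ) : cst (a * b) = cst a * cst b := map_mul cstHom a b
theorem cst_pow (a : ℂ) (n : ℕ) : cst (a ^ n) = cst a ^ n := map_pow cstHom a n
theorem cst_inv (a : ℂ) : cst a⁻¹ = (cst a)⁻¹ := map_inv₀ cstHom a

theorem cst_ne_zero {c : ℂ} (hc : c ≠ 0) : cst c ≠ 0 := by
  intro h
  exact hc (cst_injective (h.trans cst_zero.symm))

theorem sl_smul_cst (γ : SL(2, ℤ)) (c : ℂ) : γ • cst c = cst c := by
  rw [cst, MerFun.sl_smul_algebraMap, HolFun.sl_smul_algebraMap]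

theorem gl_smul_cst (g : GL(2, ℝ)⁺) (c : ℂ) : g • cst c = cst c := by
  rw [cst, MerFun.smul_algebraMap, HolFun.smul_algebraMap]

theorem algebraMap_holFun_injective : Function.Injective (algebraMap HolFun MerFun) :=
  IsFractionRing.injective HolFun MerFun

theorem algebraMap_holFun_ne_zero {a : HolFun} (ha : a ≠ 0) : algebraMap HolFun MerFun a ≠ 0 :=
  fun h => ha (algebraMap_holFun_injective (by rw [h, map_zero]))

/-- **R1.**  A nonzero element of `MerFun` all of whose orders are divisible by `n` is an `n`-th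
power in `MerFun`. -/
theorem exists_pow_eq {n : ℕ} (hn : 0 < n) (f : MerFun) (hf : f ≠ 0)
    (hdiv : ∀ τ : ℍ, (n : ℤ) ∣ ordMer τ f) : ∃ h : MerFun, h ^ n = f := by
  obtain ⟨a, b, hb, rfl⟩ := OrdFn.exists_div (R := HolFun) MerFun f
  have ha : a ≠ 0 := by rintro rfl; simp at hf
  have hb' := algebraMap_holFun_ne_zero hb
  set g : HolFun := a * b ^ (n - 1) with hg
  have hg0 : g ≠ 0 := mul_ne_zero ha (pow_ne_zero _ hb)
  have hgdiv : ∀ τ : ℍ, n ∣ (HolFun.ordAt τ).nat g := by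
    intro τ
    have h1 := hdiv τ
    rw [ordMer_div_holFun τ ha hb] at h1
    have h2 : ((HolFun.ordAt τ).nat g : ℤ) =
        ((HolFun.ordAt τ).nat a : ℤ) + ((n - 1 : ℕ) : ℤ) * ((HolFun.ordAt τ).nat b : ℤ) := by
      have e1 := ordMer_algebraMap τ hg0
      rw [hg, map_mul, map_pow, ordMer_mul τ (algebraMap_holFun_ne_zero ha)
        (pow_ne_zero _ hb'), ordMer_pow, ordMer_algebraMap τ ha, ordMer_algebraMap τ hb] at e1
      rw [← e1]
    have h3 : ((HolFun.ordAt τ).nat g : ℤ) =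
        (((HolFun.ordAt τ).nat a : ℤ) - ((HolFun.ordAt τ).nat b : ℤ)) +
          (n : ℤ) * ((HolFun.ordAt τ).nat b : ℤ) := by
      rw [h2]
      have : ((n - 1 : ℕ) : ℤ) = (n : ℤ) - 1 := by
        rw [Nat.cast_sub hn]; simp
      rw [this]; ring
    have h4 : (n : ℤ) ∣ ((HolFun.ordAt τ).nat g : ℤ) := by
      rw [h3]; exact dvd_add h1 (dvd_mul_right _ _)
    exact_mod_cast h4
  obtain ⟨k, hk⟩ := exists_holFun_pow_eq hn g hg0 hgdiv
  refine ⟨algebraMap HolFun MerFun k / algebraMap HolFun MerFun b, ?_⟩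
  rw [div_pow, ← map_pow, hk, hg, map_mul, map_pow]
  have hnn : n = (n - 1) + 1 := by omega
  conv_lhs => rw [hnn, pow_succ (algebraMap HolFun MerFun b)]
  rw [Nat.add_sub_cancel]
  field_simp

/-- The `n`-th roots of unity in `MerFun` are constants. -/
theorem exists_cst_of_pow_eq_one {n : ℕ} (hn : 0 < n) {x : MerFun} (hx : x ^ n = 1) :
    ∃ c : ℂ, c ^ n = 1 ∧ x = cst c := by
  have hprim : IsPrimitiveRoot (Complex.exp (2 * Real.pi * Complex.I / n)) n :=
    Complex.isPrimitiveRoot_exp n hn.ne'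
  have hfac := Polynomial.X_pow_sub_one_eq_prod hn hprim
  have h1 := congrArg (Polynomial.eval₂ cstHom x) hfac
  rw [Polynomial.eval₂_sub, Polynomial.eval₂_pow, Polynomial.eval₂_X, Polynomial.eval₂_one, hx,
    sub_self, Polynomial.eval₂_finsetProd] at h1
  obtain ⟨ζ, hζ, h0⟩ := Finset.prod_eq_zero_iff.1 h1.symm
  rw [Polynomial.eval₂_sub, Polynomial.eval₂_X, Polynomial.eval₂_C, sub_eq_zero] at h0
  refine ⟨ζ, ?_, h0⟩
  exact (Polynomial.mem_nthRootsFinset hn 1).1 hζ

/-- **R2.**  If `h' ^ n = h ^ n` with `h ≠ 0`, then `h' = c * h` for a unique constant `c`, and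
`c ^ n = 1`. -/
theorem existsUnique_cst_mul {n : ℕ} (hn : 0 < n) {h h' : MerFun} (hh : h ≠ 0)
    (hpow : h' ^ n = h ^ n) : ∃! c : ℂ, c ^ n = 1 ∧ h' = cst c * h := by
  have hx : (h' / h) ^ n = 1 := by
    rw [div_pow, hpow, div_self (pow_ne_zero n hh)]
  obtain ⟨c, hc, hxc⟩ := exists_cst_of_pow_eq_one hn hx
  refine ⟨c, ⟨hc, ?_⟩, ?_⟩
  · rw [← hxc, div_mul_cancel₀ _ hh]
  · rintro c' ⟨-, hc'⟩
    have : cst c' * h = cst c * h := by
      rw [← hc', ← hxc, div_mul_cancel₀ _ hh]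
    exact cst_injective (mul_right_cancel₀ hh this)

/-- R2 for the action of `SL(2,ℤ)`: if `(γ • h) ^ n = h ^ n` then `γ • h = c * h` for a unique
`n`-th root of unity `c`. -/
theorem existsUnique_cst_mul_sl_smul {n : ℕ} (hn : 0 < n) {h : MerFun} (hh : h ≠ 0)
    (γ : SL(2, ℤ)) (hpow : γ • h ^ n = h ^ n) : ∃! c : ℂ, c ^ n = 1 ∧ γ • h = cst c * h :=
  existsUnique_cst_mul hn hh (by rw [← smul_pow', hpow])

end Fermat.Agent.Gateway.Root
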