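import Fermat.Agent.Gateway.Root.Main
import Fermat.Agent.S24.LocalOrder

/-!
helper48 (P-GATEWAY WP-ROOT).  **R3**: the local lemma at a fixed point.  If `h ≠ 0` in `MerFun`
is an eigenfunction of `γ ∈ SL(2,ℤ)` (`γ • h = c * h`) and `γ` fixes `τ`, then
`c = ((c_γ τ + d_γ) ^ 2) ^ (ordMer τ h)`.
(Generalises `Fermat.Agent.S24.Bridge.denom_sq_zpow_ordMer_eq_one`.)
-/

set_option autoImplicit false

open Complex UpperHalfPlane Filter Topology
open scoped MatrixGroups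

namespace Fermat.Agent.Gateway.Root

open Fermat.Agent.S24 MerFun

/-- **Rotation lemma with a multiplier.** If `g` is meromorphic at `z₀` of finite order `k` and
`g (φ z) * c = g z` for an analytic map `φ` fixing `z₀` with derivative `ζ ≠ 0` there, then
`ζ ^ k * c = 1`. -/
theorem zpow_mul_eq_one_of_comp_mul_eq {g φ : ℂ → ℂ} {z₀ ζ c : ℂ} {k : ℤ}
    (hg : MeromorphicAt g z₀) (hk : meromorphicOrderAt g z₀ = k) (hφ : AnalyticAt ℂ φ z₀)
    (hfix : φ z₀ = z₀) (hd : deriv φ z₀ = ζ) (hζ : ζ ≠ 0)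
    (hinv : ∀ᶠ z in 𝓝[≠] z₀, g (φ z) * c = g z) : ζ ^ k * c = 1 := by
  obtain ⟨G, hG, hG0, hGev⟩ := (meromorphicOrderAt_eq_int_iff hg).mp hk
  obtain ⟨ψ, hψ, hψ0, hψev⟩ := LocalOrder.exists_eq_sub_mul_of_fixed hφ hfix hd hζ
  have hnc : ¬ EventuallyConst φ (𝓝 z₀) := by
    rw [eventuallyConst_iff_analyticOrderAt_sub_eq_top,
      hφ.analyticOrderAt_sub_eq_one_of_deriv_ne_zero (hd ▸ hζ)]
    simp
  have hmap : Tendsto φ (𝓝[≠] z₀) (𝓝[≠] z₀) := by
    have := hφ.map_nhdsNE hnc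
    rwa [hfix] at this
  have key : ∀ᶠ z in 𝓝[≠] z₀, ψ z ^ k * G (φ z) * c = G z := by
    have h1 : ∀ᶠ z in 𝓝[≠] z₀, g (φ z) = (φ z - z₀) ^ k • G (φ z) := hmap.eventually hGev
    have h2 : ∀ᶠ z in 𝓝[≠] z₀, φ z - z₀ = (z - z₀) * ψ z :=
      eventually_nhdsWithin_of_eventually_nhds hψev
    have h3 : ∀ᶠ z in 𝓝[≠] z₀, z ≠ z₀ := eventually_mem_nhdsWithin
    filter_upwards [h1, h2, h3, hGev, hinv] with z e1 e2 e3 e4 e5
    rw [e2, mul_zpow, smul_eq_mul] at e1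
    rw [e4, smul_eq_mul] at e5
    have hz : (z - z₀) ^ k ≠ 0 := zpow_ne_zero _ (sub_ne_zero.mpr e3)
    have : (z - z₀) ^ k * (ψ z ^ k * G (φ z) * c) = (z - z₀) ^ k * G z := by
      rw [← e5, e1]; ring
    exact mul_left_cancel₀ hz this
  have hcont1 : Tendsto (fun z => ψ z ^ k * G (φ z) * c) (𝓝[≠] z₀) (𝓝 (ζ ^ k * G z₀ * c)) := by
    have hψc : ContinuousAt (fun z => ψ z ^ k) z₀ :=
      hψ.continuousAt.zpow₀ k (Or.inl (hψ0 ▸ hζ))
    have hGφ : ContinuousAt (fun z => G (φ z)) z₀ := by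
      have : ContinuousAt G (φ z₀) := by rw [hfix]; exact hG.continuousAt
      exact this.comp hφ.continuousAt
    have h := ((hψc.fun_mul hGφ).mul_const c).tendsto
    have e : ψ z₀ ^ k * G (φ z₀) * c = ζ ^ k * G z₀ * c := by rw [hψ0, hfix]
    rw [e] at h
    exact h.mono_left nhdsWithin_le_nhds
  have hcont2 : Tendsto G (𝓝[≠] z₀) (𝓝 (G z₀)) :=
    hG.continuousAt.tendsto.mono_left nhdsWithin_le_nhds
  have hlim : ζ ^ k * G z₀ * c = G z₀ := tendsto_nhds_unique (hcont1.congr' key) hcont2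
  have : (ζ ^ k * c - 1) * G z₀ = 0 := by
    have : (ζ ^ k * c - 1) * G z₀ = ζ ^ k * G z₀ * c - G z₀ := by ring
    rw [this, hlim, sub_self]
  rcases mul_eq_zero.mp this with h | h
  · exact sub_eq_zero.mp h
  · exact absurd h hG0

theorem sl_smul_ne_zero' (γ : SL(2, ℤ)) {a : HolFun} (ha : a ≠ 0) : γ • a ≠ 0 := by
  intro h0
  exact ha (by simpa using congrArg (γ⁻¹ • ·) h0)

theorem meromorphicAt_holFun' (τ : ℍ) (a : HolFun) :
    MeromorphicAt ((a : ℍ → ℂ) ∘ ofComplex) τ :=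
  (HolFun.analyticAt_comp_ofComplex a τ).meromorphicAt

theorem meromorphicOrderAt_holFun' (τ : ℍ) {a : HolFun} (ha : a ≠ 0) :
    meromorphicOrderAt ((a : ℍ → ℂ) ∘ ofComplex) τ = (((HolFun.ordAt τ).nat a : ℤ) : WithTop ℤ) := by
  rw [(HolFun.analyticAt_comp_ofComplex a τ).meromorphicOrderAt_eq, ← HolFun.ordAt_apply,
    ← (HolFun.ordAt τ).coe_nat ha]
  rfl

/-- The algebraic order of a quotient of holomorphic functions is the meromorphic order of the
quotient function. -/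
theorem ordMer_div_eq_meromorphicOrderAt' (τ : ℍ) {a e : HolFun} (ha : a ≠ 0) (he : e ≠ 0) :
    ((ordMer τ (algebraMap HolFun MerFun a / algebraMap HolFun MerFun e) : ℤ) : WithTop ℤ) =
      meromorphicOrderAt (fun z : ℂ => (a : ℍ → ℂ) (ofComplex z) / (e : ℍ → ℂ) (ofComplex z)) τ := by
  rw [ordMer_div_holFun τ ha he]
  have hq : (fun z : ℂ => (a : ℍ → ℂ) (ofComplex z) / (e : ℍ → ℂ) (ofComplex z)) =
      ((a : ℍ → ℂ) ∘ ofComplex) * ((e : ℍ → ℂ) ∘ ofComplex)⁻¹ := by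
    funext z; simp [div_eq_mul_inv]
  rw [hq, meromorphicOrderAt_mul (meromorphicAt_holFun' τ a) (meromorphicAt_holFun' τ e).inv,
    meromorphicOrderAt_inv, meromorphicOrderAt_holFun' τ ha, meromorphicOrderAt_holFun' τ he]
  rfl

theorem eventually_ne_zero' (τ : ℍ) {e : HolFun} (he : e ≠ 0) :
    ∀ᶠ z in 𝓝[≠] (τ : ℂ), (e : ℍ → ℂ) (ofComplex z) ≠ 0 := by
  rcases (HolFun.analyticAt_comp_ofComplex e τ).eventually_eq_zero_or_eventually_ne_zero with h | h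
  · exfalso
    have : HolFun.ordAt τ e = ⊤ := by
      rw [HolFun.ordAt_apply, analyticOrderAt_eq_top]
      exact h
    exact he (((HolFun.ordAt τ).eq_top_iff e).mp this)
  · exact h

/-- **R3.**  If `h ≠ 0` satisfies `γ • h = c * h` and `γ` fixes `τ`, then
`((c_γ τ + d_γ) ^ 2) ^ (ordMer τ h) = c`. -/
theorem denom_sq_zpow_ordMer_eq (h : MerFun) (hh : h ≠ 0) (γ : SL(2, ℤ)) (τ : ℍ)
    (hfix : γ • τ = τ) (c : ℂ) (hc : γ • h = cst c * h) :
    (denom γ τ ^ 2) ^ (ordMer τ h) = c := by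
  obtain ⟨a, e, he, rfl⟩ := OrdFn.exists_div (R := HolFun) MerFun h
  have ha : a ≠ 0 := by rintro rfl; simp at hh
  have hinj := IsFractionRing.injective HolFun MerFun
  -- apply `γ⁻¹`
  have hinv' : algebraMap HolFun MerFun a / algebraMap HolFun MerFun e =
      cst c * (algebraMap HolFun MerFun (γ⁻¹ • a) / algebraMap HolFun MerFun (γ⁻¹ • e)) := by
    have := congrArg (γ⁻¹ • ·) hc
    simp only [inv_smul_smul, smul_mul', sl_smul_cst] at this
    rw [this, smul_div₀', sl_smul_algebraMap, sl_smul_algebraMap]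
  have ha' : γ⁻¹ • a ≠ 0 := sl_smul_ne_zero' γ⁻¹ ha
  have he' : γ⁻¹ • e ≠ 0 := sl_smul_ne_zero' γ⁻¹ he
  have hem : algebraMap HolFun MerFun e ≠ 0 := algebraMap_holFun_ne_zero he
  have hem' : algebraMap HolFun MerFun (γ⁻¹ • e) ≠ 0 := algebraMap_holFun_ne_zero he'
  have hrel : a * (γ⁻¹ • e) = algebraMap ℂ HolFun c * (γ⁻¹ • a) * e := by
    apply hinj
    rw [map_mul, map_mul, map_mul]
    rw [cst_def, mul_div_assoc', div_eq_div_iff hem hem'] at hinv'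
    exact hinv'
  have hrelpt : ∀ w : ℍ, (a : ℍ → ℂ) w * (e : ℍ → ℂ) (γ • w) =
      c * (a : ℍ → ℂ) (γ • w) * (e : ℍ → ℂ) w := by
    intro w
    have := congrArg (fun f : HolFun => (f : ℍ → ℂ) w) hrel
    simpa [HolFun.sl_smul_apply] using this
  -- the analytic side
  have hdet : 0 < ((γ : GL (Fin 2) ℝ).val).det := by
    rw [LocalOrder.det_coe_SL2Z]; exact one_pos
  set φ : ℂ → ℂ := fun z => ↑((γ : GL (Fin 2) ℝ) • ofComplex z) with hφdef
  have hφ : AnalyticAt ℂ φ τ := τ.analyticAt_smul hdet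
  have hφfix : φ τ = τ := by
    simp only [hφdef, ofComplex_apply]
    exact congrArg UpperHalfPlane.coe hfix
  have hden : denom γ τ ≠ 0 := denom_ne_zero _ τ
  have hd : deriv φ τ = (denom γ τ ^ 2)⁻¹ := by
    rw [hφdef, τ.deriv_smul hdet, LocalOrder.det_coe_SL2Z]
    simp
  have hζ : (denom γ τ ^ 2)⁻¹ ≠ 0 := inv_ne_zero (pow_ne_zero _ hden)
  have hk := (ordMer_div_eq_meromorphicOrderAt' τ ha he).symm
  have hev1 := eventually_ne_zero' τ he
  have hev2 : ∀ᶠ z in 𝓝[≠] (τ : ℂ), (e : ℍ → ℂ) (γ • ofComplex z) ≠ 0 := by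
    have := eventually_ne_zero' τ he'
    filter_upwards [this] with z hz
    simpa [HolFun.sl_smul_apply] using hz
  have hinvev : ∀ᶠ z in 𝓝[≠] (τ : ℂ),
      (fun z : ℂ => (a : ℍ → ℂ) (ofComplex z) / (e : ℍ → ℂ) (ofComplex z)) (φ z) * c =
      (fun z : ℂ => (a : ℍ → ℂ) (ofComplex z) / (e : ℍ → ℂ) (ofComplex z)) z := by
    filter_upwards [hev1, hev2] with z h1 h2
    have hφz : ofComplex (φ z) = γ • ofComplex z := by
      simp only [hφdef, ofComplex_apply]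
      rfl
    simp only [hφz]
    rw [div_mul_eq_mul_div, div_eq_div_iff h2 h1]
    have := hrelpt (ofComplex z)
    linear_combination -this
  have hmer : MeromorphicAt
      (fun z : ℂ => (a : ℍ → ℂ) (ofComplex z) / (e : ℍ → ℂ) (ofComplex z)) τ := by
    have hq : (fun z : ℂ => (a : ℍ → ℂ) (ofComplex z) / (e : ℍ → ℂ) (ofComplex z)) =
        ((a : ℍ → ℂ) ∘ ofComplex) * ((e : ℍ → ℂ) ∘ ofComplex)⁻¹ := by
      funext z; simp [div_eq_mul_inv]
    rw [hq]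
    exact (meromorphicAt_holFun' τ a).mul (meromorphicAt_holFun' τ e).inv
  have := zpow_mul_eq_one_of_comp_mul_eq hmer hk hφ hφfix hd hζ hinvev
  rw [inv_zpow] at this
  have hne : (denom γ τ ^ 2) ^ ordMer τ (algebraMap HolFun MerFun a / algebraMap HolFun MerFun e)
      ≠ 0 := zpow_ne_zero _ (pow_ne_zero _ hden)
  field_simp at this
  exact this.symm

/-- R3 at elliptic points: if moreover the multiplier `(c_γ τ + d_γ)^2` has order dividing
`ordMer τ h`, the eigenvalue is `1`. -/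
theorem eigenvalue_eq_one_of_dvd (h : MerFun) (hh : h ≠ 0) (γ : SL(2, ℤ)) (τ : ℍ)
    (hfix : γ • τ = τ) (c : ℂ) (hc : γ • h = cst c * h) {e : ℕ} (he : (denom γ τ ^ 2) ^ e = 1)
    (hdvd : (e : ℤ) ∣ ordMer τ h) : c = 1 := by
  rw [← denom_sq_zpow_ordMer_eq h hh γ τ hfix c hc]
  obtain ⟨m, hm⟩ := hdvd
  rw [hm, zpow_mul, zpow_natCast, he, one_zpow]

end Fermat.Agent.Gateway.Root
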