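import Fermat.Agent.Gateway.Root.CuspEigen

/-!
helper48 (P-GATEWAY WP-ROOT).  **R4**: the cusp lemma.

* `ordInfMer_nat_mul` : change of level for `IsCuspMer` / `ordInfMer`.
* `isCuspMer_of_pow` (R4a) : if `h ^ n` is a quotient of `N`-periodic cusp functions, `h` is a
  quotient of `n * N`-periodic cusp functions, and `ordInfMer (n * N) h = ordInfMer N (h ^ n)`.
* `T_pow_smul_eq_of_pow` (R4) : if `h ^ n` is `T ^ k`-invariant (`k ∣ N`) and its order at `i∞` in
  the parameter `q_N` is divisible by `n * (N / k)`, then `h` is `T ^ k`-invariant.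
-/

set_option autoImplicit false

open Complex UpperHalfPlane Filter Function
open scoped Manifold MatrixGroups

namespace Fermat.Agent.Gateway.Root

open Fermat.Agent.S24 MerFun CuspOrd

/-- Change of level. -/
theorem isCuspMer_nat_mul {N : ℕ} (m : ℕ) {y : MerFun} (hy : IsCuspMer N y) :
    IsCuspMer (m * N) y := by
  obtain ⟨a, b, ha, hb, hb0, rfl⟩ := hy
  exact ⟨a, b, (mem_cuspFnAlg.1 ha).nat_mul m, (mem_cuspFnAlg.1 hb).nat_mul m, hb0, rfl⟩

theorem ordInfMer_nat_mul {N m : ℕ} (hN : 0 < N) (hm : 0 < m) {y : MerFun} (hy : IsCuspMer N y) :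
    ordInfMer (m * N) y = m * ordInfMer N y := by
  rcases eq_or_ne y 0 with rfl | hy0
  · simp [ordInfMer_zero]
  obtain ⟨a, b, ha, hb, ha0, hb0, rfl⟩ := hy.exists_div hy0
  have hmN : 0 < m * N := Nat.mul_pos hm hN
  have ha' : a ∈ cuspFnAlg (m * N) := (mem_cuspFnAlg.1 ha).nat_mul m
  have hb' : b ∈ cuspFnAlg (m * N) := (mem_cuspFnAlg.1 hb).nat_mul m
  rw [ordInfMer_div hmN ha' hb' ha0 hb0, ordInfMer_div hN ha hb ha0 hb0,
    ordInf_nat_mul hN hm (mem_cuspFnAlg.1 ha), ordInf_nat_mul hN hm (mem_cuspFnAlg.1 hb)]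
  ring

/-- If `f ^ n` is bounded at `i∞` then so is `f`. -/
theorem isBoundedAtImInfty_of_pow {f : ℍ → ℂ} {n : ℕ} (hn : 0 < n)
    (h : IsBoundedAtImInfty (f ^ n)) : IsBoundedAtImInfty f := by
  rw [UpperHalfPlane.isBoundedAtImInfty_iff] at h ⊢
  obtain ⟨M, A, hMA⟩ := h
  refine ⟨max M 1, A, fun z hz => ?_⟩
  by_contra hcon
  push Not at hcon
  have h1 : 1 < ‖f z‖ := lt_of_le_of_lt (le_max_right _ _) hcon
  have h2 : ‖f z‖ ≤ ‖f z‖ ^ n := le_self_pow₀ h1.le hn.ne'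
  have h3 : ‖f z‖ ^ n ≤ M := by
    have := hMA z hz
    rwa [Pi.pow_apply, norm_pow] at this
  have h4 : M < ‖f z‖ := lt_of_le_of_lt (le_max_left _ _) hcon
  linarith

/-- A holomorphic `n`-th root of an `N`-periodic cusp function is an `n * N`-periodic cusp
function. -/
theorem mem_cuspFnAlg_of_pow {N n : ℕ} (hn : 0 < n) {k G : HolFun} (hG : G ∈ cuspFnAlg N)
    (hk : k ^ n = G) : k ∈ cuspFnAlg (n * N) := by
  rcases eq_or_ne G 0 with hG0 | hG0
  · have : k = 0 := by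
      rw [hG0] at hk
      exact pow_eq_zero_iff hn.ne' |>.1 hk
    rw [this]; exact (cuspFnAlg _).zero_mem
  have hk0 : k ≠ 0 := by
    rintro rfl
    rw [zero_pow hn.ne'] at hk
    exact hG0 hk.symm
  have hkm := algebraMap_ne_zero hk0
  -- periodicity
  have hTG : ModularGroup.T ^ N • G = G := T_pow_smul_of_mem_cuspFnAlg hG
  have hpow : (ModularGroup.T ^ N • algebraMap HolFun MerFun k) ^ n =
      (algebraMap HolFun MerFun k) ^ n := by
    rw [← smul_pow', ← map_pow, hk, MerFun.sl_smul_algebraMap, hTG]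
  obtain ⟨ζ, ⟨hζn, hζ⟩, -⟩ := existsUnique_cst_mul hn hkm hpow
  have hζ' : ModularGroup.T ^ N • k = algebraMap ℂ HolFun ζ * k := by
    apply algebraMap_injective
    rw [← MerFun.sl_smul_algebraMap, hζ, map_mul, cst_def]
  have hiter : ∀ i : ℕ, (ModularGroup.T ^ N) ^ i • k = algebraMap ℂ HolFun (ζ ^ i) * k := by
    intro i
    induction i with
    | zero => simp
    | succ i ih =>
      rw [pow_succ', mul_smul, ih, smul_mul', HolFun.sl_smul_algebraMap, hζ', pow_succ, map_mul]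
      ring
  have hper : ModularGroup.T ^ (n * N) • k = k := by
    rw [mul_comm, pow_mul, hiter n, hζn, map_one, one_mul]
  refine ⟨HolFun.mdiff k, (T_pow_smul_eq_iff (n * N) k).1 hper, ?_⟩
  -- growth
  obtain ⟨M, hM⟩ := (mem_cuspFnAlg.1 hG).exists_bddBy
  refine ⟨M, ?_⟩
  show IsBoundedAtImInfty ((ModularForm.discriminant : ℍ → ℂ) ^ M * (k : ℍ → ℂ))
  apply isBoundedAtImInfty_of_pow hn
  have : ((ModularForm.discriminant : ℍ → ℂ) ^ M * (k : ℍ → ℂ)) ^ n =
      ((ModularForm.discriminant : ℍ → ℂ) ^ M) ^ (n - 1) *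
        ((ModularForm.discriminant : ℍ → ℂ) ^ M * (G : ℍ → ℂ)) := by
    have hkG : (k : ℍ → ℂ) ^ n = (G : ℍ → ℂ) := by
      rw [← hk]; rfl
    rw [mul_pow, hkG, ← mul_assoc, ← pow_succ, Nat.sub_add_cancel hn]
  rw [this]
  have hb : IsBoundedAtImInfty (((ModularForm.discriminant : ℍ → ℂ) ^ M) ^ (n - 1)) := by
    rw [← pow_mul]; exact isBounded_discriminant_pow _
  exact hb.mul hM

/-- **R4a.**  If `h ^ n` is a quotient of `N`-periodic cusp functions, then `h` is a quotient of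
`n * N`-periodic cusp functions. -/
theorem isCuspMer_of_pow {N n : ℕ} (hn : 0 < n) {h : MerFun} (hF : IsCuspMer N (h ^ n)) :
    IsCuspMer (n * N) h := by
  rcases eq_or_ne h 0 with rfl | hh
  · exact isCuspMer_zero _
  obtain ⟨a, b, ha, hb, ha0, hb0, hab⟩ := hF.exists_div (pow_ne_zero n hh)
  have hbm := algebraMap_ne_zero hb0
  set x : MerFun := h * algebraMap HolFun MerFun b with hx
  have hx0 : x ≠ 0 := mul_ne_zero hh hbm
  set G : HolFun := a * b ^ (n - 1) with hG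
  have hGmem : G ∈ cuspFnAlg N := (cuspFnAlg N).mul_mem ha ((cuspFnAlg N).pow_mem hb _)
  have hG0 : G ≠ 0 := mul_ne_zero ha0 (pow_ne_zero _ hb0)
  have hxG : x ^ n = algebraMap HolFun MerFun G := by
    rw [hx, mul_pow, hab, hG, map_mul, map_pow]
    have hnn : n = (n - 1) + 1 := by omega
    conv_lhs => rw [hnn, pow_succ (algebraMap HolFun MerFun b)]
    field_simp
  -- all orders of `G` are divisible by `n`
  have hdiv : ∀ τ : ℍ, n ∣ (HolFun.ordAt τ).nat G := by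
    intro τ
    have h1 : ((HolFun.ordAt τ).nat G : ℤ) = n * ordMer τ x := by
      rw [← ordMer_algebraMap τ hG0, ← hxG, ordMer_pow]
    have h2 : (n : ℤ) ∣ ((HolFun.ordAt τ).nat G : ℤ) := ⟨_, h1⟩
    exact_mod_cast h2
  obtain ⟨k₀, hk₀⟩ := exists_holFun_pow_eq hn G hG0 hdiv
  have hk₀0 : k₀ ≠ 0 := by
    rintro rfl
    rw [zero_pow hn.ne'] at hk₀
    exact hG0 hk₀.symm
  have hpow : x ^ n = (algebraMap HolFun MerFun k₀) ^ n := by
    rw [hxG, ← map_pow, hk₀]
  obtain ⟨ζ, ⟨hζn, hζ⟩, -⟩ := existsUnique_cst_mul hn (algebraMap_ne_zero hk₀0) hpow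
  set k : HolFun := algebraMap ℂ HolFun ζ * k₀ with hk
  have hxk : x = algebraMap HolFun MerFun k := by
    rw [hζ, hk, map_mul, cst_def]
  have hkG : k ^ n = G := by
    rw [hk, mul_pow, ← map_pow, hζn, map_one, one_mul, hk₀]
  have hkmem : k ∈ cuspFnAlg (n * N) := mem_cuspFnAlg_of_pow hn hGmem hkG
  refine ⟨k, b, hkmem, (mem_cuspFnAlg.1 hb).nat_mul n, hb0, ?_⟩
  rw [← hxk, hx, mul_div_cancel_right₀ _ hbm]

/-- The order of an `n`-th root at `i∞`. -/
theorem ordInfMer_of_pow {N n : ℕ} (hN : 0 < N) (hn : 0 < n) {h : MerFun}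
    (hF : IsCuspMer N (h ^ n)) : ordInfMer (n * N) h = ordInfMer N (h ^ n) := by
  have hnN : 0 < n * N := Nat.mul_pos hn hN
  have h1 := ordInfMer_pow hnN (isCuspMer_of_pow hn hF) n
  have h2 := ordInfMer_nat_mul hN hn hF
  rw [h2] at h1
  have hn' : (n : ℤ) ≠ 0 := by exact_mod_cast hn.ne'
  exact (mul_left_cancel₀ hn' h1).symm

/-- **R4** (cusp lemma).  Let `h ≠ 0` in `MerFun` be such that `h ^ n` is a quotient of
`N`-periodic cusp functions, invariant under `T ^ k` with `k ∣ N`, whose order at `i∞` in the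
parameter `q_N` is divisible by `n * (N / k)` (i.e. its order in the parameter `q_k` is divisible
by `n`).  Then `h` is invariant under `T ^ k`. -/
theorem T_pow_smul_eq_of_pow {N n k : ℕ} (hN : 0 < N) (hn : 0 < n) (hk : k ∣ N) {h : MerFun}
    (hh : h ≠ 0) (hF : IsCuspMer N (h ^ n)) (hinv : ModularGroup.T ^ k • h ^ n = h ^ n)
    (hdvd : ((n * (N / k) : ℕ) : ℤ) ∣ ordInfMer N (h ^ n)) : ModularGroup.T ^ k • h = h := by
  obtain ⟨ζ, ⟨-, hζ⟩, -⟩ := existsUnique_cst_mul_sl_smul hn hh (ModularGroup.T ^ k) hinv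
  have hnN : 0 < n * N := Nat.mul_pos hn hN
  have hζ' : ModularGroup.T ^ (k : ℤ) • h = cst ζ * h := by rw [zpow_natCast]; exact hζ
  have e := eigenvalue_of_T_zpow_smul hnN (isCuspMer_of_pow hn hF) hh (k : ℤ) ζ hζ'
  rw [ordInfMer_of_pow hN hn hF] at e
  obtain ⟨t, ht⟩ := hdvd
  have hone : ζ = 1 := by
    rw [e, ht]
    have hkpos : 0 < k := Nat.pos_of_dvd_of_pos hk hN
    obtain ⟨d, rfl⟩ := hk
    rw [Nat.mul_div_cancel_left _ hkpos]
    have hk' : (k : ℂ) ≠ 0 := Nat.cast_ne_zero.2 hkpos.ne'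
    have hd' : (d : ℂ) ≠ 0 := by
      rintro h0
      have : d = 0 := by exact_mod_cast h0
      rw [this, mul_zero] at hN
      exact lt_irrefl _ hN
    have hn' : (n : ℂ) ≠ 0 := Nat.cast_ne_zero.2 hn.ne'
    rw [Function.Periodic.qParam, ← Complex.exp_int_mul]
    have : ((((n * d : ℕ) : ℤ) * t : ℤ) : ℂ) *
        (2 * (Real.pi : ℂ) * Complex.I * ((-(k : ℤ) : ℤ) : ℂ) / (((n * (k * d) : ℕ) : ℝ) : ℂ)) =
        ((-t : ℤ) : ℂ) * (2 * (Real.pi : ℂ) * Complex.I) := by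
      push_cast
      field_simp
    rw [this, Complex.exp_int_mul_two_pi_mul_I]
  rw [hζ, hone, cst_one, one_mul]

end Fermat.Agent.Gateway.Root
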