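import Fermat.Agent.Gateway.Root.Main
import Fermat.Agent.S24.CuspOrdMer

/-!
helper48 (P-GATEWAY WP-ROOT).  The eigenvalue formula at the cusp `i∞`: if a quotient `x` of
`N`-periodic holomorphic functions of moderate growth satisfies `T ^ k • x = ζ * x`, then
`ζ = exp (2 π i (-k) / N) ^ ordInfMer N x`.
-/

set_option autoImplicit false

open Complex UpperHalfPlane Filter Function
open scoped Manifold MatrixGroups

namespace Fermat.Agent.Gateway.Root

open Fermat.Agent.S24 MerFun CuspOrd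

theorem qParam_int_zpow_mul (N : ℕ) (hN : 0 < N) (k : ℤ) (M : ℤ) :
    Function.Periodic.qParam (N : ℝ) (k : ℂ) ^ ((N : ℤ) * M) = 1 := by
  have hN' : (N : ℂ) ≠ 0 := Nat.cast_ne_zero.2 hN.ne'
  rw [Function.Periodic.qParam, ← Complex.exp_int_mul]
  have : (((N : ℤ) * M : ℤ) : ℂ) * (2 * (Real.pi : ℂ) * Complex.I * (k : ℂ) / ((N : ℝ) : ℂ)) =
      ((k * M : ℤ) : ℂ) * (2 * (Real.pi : ℂ) * Complex.I) := by
    push_cast
    field_simp
  rw [this, Complex.exp_int_mul_two_pi_mul_I]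

/-- **Eigenvalue formula, holomorphic case.**  If a nonzero `N`-periodic holomorphic function of
moderate growth satisfies `f (z + k) = ζ f (z)`, then `ζ = exp (2 π i k / N) ^ ordInf N f`. -/
theorem eigenvalue_of_vadd {N : ℕ} (hN : 0 < N) {f : ℍ → ℂ} (hf : IsCuspFn N f) (hf0 : f ≠ 0)
    (k : ℤ) (ζ : ℂ) (hζ : ∀ z : ℍ, f ((k : ℝ) +ᵥ z) = ζ * f z) :
    ζ = Function.Periodic.qParam (N : ℝ) (k : ℂ) ^ (ordInf N f) := by
  obtain ⟨M, hM⟩ := hf.exists_bddBy
  have hNr : (0 : ℝ) < N := by exact_mod_cast hN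
  set Φ : ℍ → ℂ := (ModularForm.discriminant : ℍ → ℂ) ^ M * f with hΦ
  have hΦtr : (fun z : ℍ => Φ ((k : ℝ) +ᵥ z)) = ζ • Φ := by
    funext z
    simp only [hΦ, Pi.mul_apply, Pi.pow_apply, Pi.smul_apply, smul_eq_mul]
    rw [isPer_discriminant_int k z, hζ z]
    ring
  have han : AnalyticAt ℂ (cuspFunction (N : ℝ) Φ) 0 := analyticAt_cusp hN hf.mdiff hf.isPer hM
  have hcoeff : ∀ m : ℕ, ζ * (qSeries N M f).coeff m =
      Function.Periodic.qParam (N : ℝ) (k : ℂ) ^ m * (qSeries N M f).coeff m := by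
    intro m
    have h1 := qExpansion_vadd_coeff hNr (mdiff_pow_mul hf.mdiff M) (isPer_pow_mul hf.isPer M) hM
      (k : ℝ) m
    have h1' : (PowerSeries.coeff m) (qExpansion (N : ℝ) (fun z : ℍ => Φ ((k : ℝ) +ᵥ z))) =
        Function.Periodic.qParam (N : ℝ) (((k : ℝ) : ℂ)) ^ m *
          (PowerSeries.coeff m) (qExpansion (N : ℝ) Φ) := h1
    rw [hΦtr, qExpansion_smul han] at h1'
    simp only [qSeries]
    rw [← hΦ]
    simpa using h1'
  have hq0 : qSeries N M f ≠ 0 := fun h => hf0 ((qSeries_eq_zero_iff hN hf.mdiff hf.isPer hM).1 h)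
  obtain ⟨hne, -⟩ := (nord_eq_iff (n := nord (qSeries N M f)) hq0).1 rfl
  have h2 := mul_right_cancel₀ hne (hcoeff (nord (qSeries N M f)))
  rw [hf.ordInf_eq hN hM hf0, ordAux, h2]
  have hq : Function.Periodic.qParam (N : ℝ) (k : ℂ) ≠ 0 := Complex.exp_ne_zero _
  rw [zpow_sub₀ hq, qParam_int_zpow_mul N hN k M, div_one, zpow_natCast]

/-- Products of translates: the "norm" of `b` for the cyclic group generated by `σ`. -/
theorem exists_invariant_multiple {N : ℕ} (σ : SL(2, ℤ)) (m : ℕ) (hm : 0 < m)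
    (hσmem : ∀ {a : HolFun}, a ∈ cuspFnAlg N → σ • a ∈ cuspFnAlg N)
    {b : HolFun} (hb : b ∈ cuspFnAlg N) (hb0 : b ≠ 0) (hσm : σ ^ m • b = b) :
    ∃ c : HolFun, c ∈ cuspFnAlg N ∧ c ≠ 0 ∧ σ • (c * b) = c * b := by
  set P : ℕ → HolFun := fun i => σ ^ i • b with hP
  have hP0 : P 0 = b := by simp [hP]
  have hPm : P m = b := hσm
  have hPmem : ∀ i, P i ∈ cuspFnAlg N := by
    intro i
    induction i with
    | zero => rw [hP0]; exact hb
    | succ i ih =>
      have : P (i + 1) = σ • P i := by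
        simp only [hP]; rw [← mul_smul, ← pow_succ']
      rw [this]; exact hσmem ih
  have hPne : ∀ i, P i ≠ 0 := fun i => sl_smul_ne_zero _ hb0
  have hσP : ∀ i, σ • P i = P (i + 1) := by
    intro i
    simp only [hP]
    rw [← mul_smul, ← pow_succ']
  set Q : HolFun := ∏ i ∈ Finset.range m, P i with hQ
  have hQσ : σ • Q = Q := by
    have h1 : σ • Q = ∏ i ∈ Finset.range m, P (i + 1) := by
      rw [hQ, Finset.smul_prod']
      exact Finset.prod_congr rfl (fun i _ => hσP i)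
    have h2 : (∏ i ∈ Finset.range m, P (i + 1)) * P 0 = Q * P m := by
      rw [← Finset.prod_range_succ', Finset.prod_range_succ]
    rw [hP0, hPm] at h2
    rw [h1]
    exact mul_right_cancel₀ hb0 h2
  obtain ⟨m', rfl⟩ : ∃ m', m = m' + 1 := ⟨m - 1, by omega⟩
  refine ⟨∏ i ∈ Finset.range m', P (i + 1), Subalgebra.prod_mem _ (fun i _ => hPmem (i + 1)),
    Finset.prod_ne_zero_iff.2 (fun i _ => hPne (i + 1)), ?_⟩
  have hQc : Q = (∏ i ∈ Finset.range m', P (i + 1)) * b := by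
    rw [hQ, Finset.prod_range_succ', hP0]
  rw [← hQc]
  exact hQσ

/-- **Eigenvalue formula at the cusp.**  If `x ≠ 0` is a quotient of `N`-periodic holomorphic
functions of moderate growth and `T ^ k • x = ζ * x`, then
`ζ = exp (2 π i (-k) / N) ^ ordInfMer N x`. -/
theorem eigenvalue_of_T_zpow_smul {N : ℕ} (hN : 0 < N) {x : MerFun} (hx : IsCuspMer N x)
    (hx0 : x ≠ 0) (k : ℤ) (ζ : ℂ) (hζ : ModularGroup.T ^ k • x = cst ζ * x) :
    ζ = Function.Periodic.qParam (N : ℝ) ((-k : ℤ) : ℂ) ^ (ordInfMer N x) := by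
  obtain ⟨a, b, ha, hb, ha0, hb0, rfl⟩ := hx.exists_div hx0
  set σ : SL(2, ℤ) := ModularGroup.T ^ k with hσ
  have hσN : σ ^ N • b = b := by
    have h1 : σ ^ N = (ModularGroup.T ^ N) ^ k := by
      rw [hσ, ← zpow_natCast, ← zpow_mul, ← zpow_natCast, ← zpow_mul, mul_comm]
    rw [h1]
    have h2 : ModularGroup.T ^ N • b = b := T_pow_smul_of_mem_cuspFnAlg hb
    have h3 : ∀ j : ℕ, (ModularGroup.T ^ N) ^ j • b = b := by
      intro j
      induction j with
      | zero => simp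
      | succ j ih => rw [pow_succ, mul_smul, h2, ih]
    rcases Int.eq_nat_or_neg k with ⟨j, rfl | rfl⟩
    · rw [zpow_natCast]; exact h3 j
    · rw [zpow_neg, zpow_natCast, inv_smul_eq_iff, h3 j]
  obtain ⟨c, hc, hc0, hQσ⟩ := exists_invariant_multiple (N := N) σ N hN
    (fun {a} ha => T_zpow_smul_mem_cuspFnAlg ha k) hb hb0 hσN
  obtain ⟨Q, hQ⟩ : ∃ Q : HolFun, Q = c * b := ⟨_, rfl⟩
  rw [← hQ] at hQσ
  have hQmem : Q ∈ cuspFnAlg N := by rw [hQ]; exact (cuspFnAlg N).mul_mem hc hb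
  have hQ0 : Q ≠ 0 := by rw [hQ]; exact mul_ne_zero hc0 hb0
  have hxeq : algebraMap HolFun MerFun a / algebraMap HolFun MerFun b =
      algebraMap HolFun MerFun (c * a) / algebraMap HolFun MerFun Q := by
    rw [hQ, map_mul, map_mul, mul_div_mul_left _ _ (algebraMap_ne_zero hc0)]
  have hcamem : c * a ∈ cuspFnAlg N := (cuspFnAlg N).mul_mem hc ha
  have hca0 : c * a ≠ 0 := mul_ne_zero hc0 ha0
  have hcaσ : σ • (c * a) = algebraMap ℂ HolFun ζ * (c * a) := by
    apply algebraMap_injective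
    have h3 : algebraMap HolFun MerFun (c * a) =
        (algebraMap HolFun MerFun a / algebraMap HolFun MerFun b) * algebraMap HolFun MerFun Q := by
      rw [hxeq, div_mul_cancel₀ _ (algebraMap_ne_zero hQ0)]
    calc algebraMap HolFun MerFun (σ • (c * a))
        = σ • ((algebraMap HolFun MerFun a / algebraMap HolFun MerFun b) *
            algebraMap HolFun MerFun Q) := by rw [← MerFun.sl_smul_algebraMap, h3]
      _ = cst ζ * (algebraMap HolFun MerFun a / algebraMap HolFun MerFun b) *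
            algebraMap HolFun MerFun Q := by
          rw [smul_mul', hζ, MerFun.sl_smul_algebraMap, hQσ]
      _ = cst ζ * algebraMap HolFun MerFun (c * a) := by rw [mul_assoc, ← h3]
      _ = algebraMap HolFun MerFun (algebraMap ℂ HolFun ζ * (c * a)) := by
          rw [cst_def, ← map_mul (algebraMap HolFun MerFun)]
  -- pointwise
  have hpt1 : ∀ z : ℍ, ((c * a : HolFun) : ℍ → ℂ) (((-k : ℤ) : ℝ) +ᵥ z) =
      ζ * ((c * a : HolFun) : ℍ → ℂ) z := by
    intro z
    have h1 := congrFun (T_zpow_smul_coe k (c * a)) z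
    rw [← hσ, hcaσ] at h1
    simp only [HolFun.coe_mul_apply, HolFun.coe_algebraMap] at h1 ⊢
    rw [← h1]
  have hpt2 : ∀ z : ℍ, (Q : ℍ → ℂ) (((-k : ℤ) : ℝ) +ᵥ z) = 1 * (Q : ℍ → ℂ) z := by
    intro z
    have h1 := congrFun (T_zpow_smul_coe k Q) z
    rw [← hσ, hQσ] at h1
    rw [one_mul, ← h1]
  have e1 := eigenvalue_of_vadd hN (mem_cuspFnAlg.1 hcamem) (holFun_ne_zero_iff.1 hca0) (-k) ζ hpt1
  have e2 := eigenvalue_of_vadd hN (mem_cuspFnAlg.1 hQmem) (holFun_ne_zero_iff.1 hQ0) (-k) 1 hpt2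
  have hq : Function.Periodic.qParam (N : ℝ) ((-k : ℤ) : ℂ) ≠ 0 := Complex.exp_ne_zero _
  rw [hxeq, ordInfMer_div hN hcamem hQmem hca0 hQ0, zpow_sub₀ hq, ← e1, ← e2, div_one]

end Fermat.Agent.Gateway.Root
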