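import Fermat.Agent.Gateway.Root.LocalRoot
import Fermat.Agent.S24.Ord

/-!
helper48 (P-GATEWAY WP-ROOT).  **R0**: a nonzero holomorphic function on the upper half-plane all
of whose zeros have order divisible by `n` has a holomorphic `n`-th root.  Proof: exhaust `ℍ` by
the discs `ball ((m+2) i) (m + 2 - 1/(m+2))`, take the local roots of `LocalRoot.lean` normalised
at a base point, and glue using uniqueness.
-/

set_option autoImplicit false

open Complex Metric Set Filter Topology UpperHalfPlane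
open scoped Manifold

namespace Fermat.Agent.Gateway.Root

open Fermat.Agent.S24

/-- Centre of the `m`-th exhausting disc. -/
noncomputable def ctr (m : ℕ) : ℂ := ((m : ℝ) + 2) * Complex.I

/-- Radius of the `m`-th exhausting disc. -/
noncomputable def rad (m : ℕ) : ℝ := ((m : ℝ) + 2) - 1 / ((m : ℝ) + 2)

theorem rad_pos (m : ℕ) : 0 < rad m := by
  unfold rad
  have h : (0 : ℝ) < (m : ℝ) + 2 := by positivity
  have h1 : 1 / ((m : ℝ) + 2) < 1 := by
    rw [div_lt_one h]; linarith [(Nat.cast_nonneg m : (0 : ℝ) ≤ m)]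
  linarith [(Nat.cast_nonneg m : (0 : ℝ) ≤ m)]

theorem im_pos_of_mem_closedBall {m : ℕ} {z : ℂ} (hz : z ∈ closedBall (ctr m) (rad m)) :
    0 < z.im := by
  have h : (0 : ℝ) < (m : ℝ) + 2 := by positivity
  have h1 : |(z - ctr m).im| ≤ rad m := by
    refine (abs_im_le_norm _).trans ?_
    rw [← dist_eq_norm]; exact mem_closedBall.1 hz
  have h2 : (z - ctr m).im = z.im - ((m : ℝ) + 2) := by
    simp [ctr]
  rw [h2] at h1
  have h3 := (abs_le.1 h1).1
  unfold rad at h3
  have h4 : 0 < 1 / ((m : ℝ) + 2) := by positivity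
  linarith

theorem ball_subset_ball_succ (m : ℕ) : ball (ctr m) (rad m) ⊆ ball (ctr (m + 1)) (rad (m + 1)) := by
  intro z hz
  rw [mem_ball] at hz ⊢
  have h1 : dist (ctr m) (ctr (m + 1)) = 1 := by
    rw [dist_eq_norm]
    have : ctr m - ctr (m + 1) = -Complex.I := by
      simp only [ctr]; push_cast; ring
    rw [this]; simp
  have h2 : dist z (ctr (m + 1)) ≤ dist z (ctr m) + 1 := by
    rw [← h1]; exact dist_triangle _ _ _
  have h3 : rad m + 1 < rad (m + 1) := by
    unfold rad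
    push_cast
    have h : (0 : ℝ) < (m : ℝ) + 2 := by positivity
    have h' : (0 : ℝ) < (m : ℝ) + 1 + 2 := by positivity
    have : 1 / ((m : ℝ) + 1 + 2) < 1 / ((m : ℝ) + 2) := by
      apply one_div_lt_one_div_of_lt h; linarith
    linarith
  linarith

theorem ball_mono {m m' : ℕ} (h : m ≤ m') : ball (ctr m) (rad m) ⊆ ball (ctr m') (rad m') := by
  induction m', h using Nat.le_induction with
  | base => exact subset_rfl
  | succ k _ ih => exact ih.trans (ball_subset_ball_succ k)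

theorem exists_mem_ball {z : ℂ} (hz : 0 < z.im) : ∃ m : ℕ, z ∈ ball (ctr m) (rad m) := by
  obtain ⟨m, hm⟩ := exists_nat_gt ((z.re ^ 2 + z.im ^ 2 + 2) / (2 * z.im))
  refine ⟨m, ?_⟩
  rw [mem_ball, dist_eq_norm]
  have hM : (0 : ℝ) < (m : ℝ) + 2 := by positivity
  have hrad : 0 < rad m := rad_pos m
  apply lt_of_pow_lt_pow_left₀ 2 hrad.le
  rw [Complex.sq_norm, Complex.normSq_apply]
  have h1 : (z - ctr m).re = z.re := by simp [ctr]
  have h2 : (z - ctr m).im = z.im - ((m : ℝ) + 2) := by simp [ctr]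
  rw [h1, h2, ← pow_two, ← pow_two]
  have h3 : z.re ^ 2 + z.im ^ 2 + 2 < 2 * z.im * ((m : ℝ) + 2) := by
    have := (div_lt_iff₀ (by positivity : 0 < 2 * z.im)).1 hm
    nlinarith
  have h4 : rad m ^ 2 = ((m : ℝ) + 2) ^ 2 - 2 + (1 / ((m : ℝ) + 2)) ^ 2 := by
    unfold rad
    field_simp
    ring
  rw [h4]
  have h5 : 0 ≤ (1 / ((m : ℝ) + 2)) ^ 2 := by positivity
  nlinarith

/-- **R0.**  Holomorphic `n`-th roots on the upper half-plane. -/
theorem exists_holFun_pow_eq {n : ℕ} (hn : 0 < n) (g : HolFun) (hg : g ≠ 0)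
    (hdiv : ∀ τ : ℍ, n ∣ (HolFun.ordAt τ).nat g) : ∃ k : HolFun, k ^ n = g := by
  classical
  set F : ℂ → ℂ := (g : ℍ → ℂ) ∘ ofComplex with hF
  have hFa : ∀ z : ℂ, 0 < z.im → AnalyticAt ℂ F z := fun z hz =>
    HolFun.analyticAt_comp_ofComplex g ⟨z, hz⟩
  have hFfin : ∀ z : ℂ, 0 < z.im → analyticOrderAt F z ≠ ⊤ := by
    intro z hz h
    exact hg ((HolFun.ordAtFun_eq_top_iff ⟨z, hz⟩ g).1 h)
  have hFdiv : ∀ z : ℂ, 0 < z.im → n ∣ analyticOrderNatAt F z := fun z hz => hdiv ⟨z, hz⟩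
  -- base point
  have hc0 : 0 < (ctr 0).im := im_pos_of_mem_closedBall (mem_closedBall_self (rad_pos 0).le)
  obtain ⟨z₀, hz₀b, hz₀⟩ : ∃ z₀ ∈ ball (ctr 0) (rad 0), F z₀ ≠ 0 := by
    by_contra hcon
    push Not at hcon
    apply hFfin (ctr 0) hc0
    rw [analyticOrderAt_eq_top]
    filter_upwards [isOpen_ball.mem_nhds (mem_ball_self (rad_pos 0))] with z hz
    exact hcon z hz
  obtain ⟨w₀, hw₀⟩ : ∃ w : ℂ, w ^ n = F z₀ := IsAlgClosed.exists_pow_nat_eq (F z₀) hn
  have hw₀ne : w₀ ≠ 0 := by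
    rintro rfl
    rw [zero_pow hn.ne'] at hw₀
    exact hz₀ hw₀.symm
  have hz₀m : ∀ m, z₀ ∈ ball (ctr m) (rad m) := fun m => ball_mono (Nat.zero_le m) hz₀b
  -- the normalised local roots
  have hloc : ∀ m : ℕ, ∃ k : ℂ → ℂ, DifferentiableOn ℂ k (ball (ctr m) (rad m)) ∧
      (∀ z ∈ ball (ctr m) (rad m), k z ^ n = F z) ∧ k z₀ = w₀ := by
    intro m
    obtain ⟨k, hkd, hk⟩ := exists_root_on_ball (g := F) (c := ctr m) (r := rad m)
      (fun z hz => hFa z (im_pos_of_mem_closedBall hz))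
      (fun z hz => hFfin z (im_pos_of_mem_closedBall hz)) hn
      (fun z hz => hFdiv z (im_pos_of_mem_closedBall hz))
    have hk0 : k z₀ ≠ 0 := by
      intro h0
      have := hk z₀ (hz₀m m)
      rw [h0, zero_pow hn.ne'] at this
      exact hz₀ this.symm
    refine ⟨fun z => (w₀ / k z₀) * k z, (differentiableOn_const _).mul hkd, ?_, ?_⟩
    · intro z hz
      rw [mul_pow, div_pow, hw₀, hk z₀ (hz₀m m), div_self hz₀, one_mul, hk z hz]
    · simp only
      rw [div_mul_cancel₀ _ hk0]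
  choose K hKd hKpow hKz₀ using hloc
  have hcompat : ∀ {m m' : ℕ}, m ≤ m' → EqOn (K m) (K m') (ball (ctr m) (rad m)) := by
    intro m m' hmm'
    apply root_unique isOpen_ball (convex_ball _ _).isPreconnected (hKd m)
      ((hKd m').mono (ball_mono hmm')) hn _ (hz₀m m) _ _
    · intro z hz
      rw [hKpow m z hz, hKpow m' z (ball_mono hmm' hz)]
    · rw [hKz₀, hKz₀]
    · rw [hKz₀]; exact hw₀ne
  -- the global root
  have hex : ∀ τ : ℍ, ∃ m : ℕ, (τ : ℂ) ∈ ball (ctr m) (rad m) := fun τ => exists_mem_ball τ.im_pos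
  set k : ℍ → ℂ := fun τ => K (Nat.find (hex τ)) τ with hk
  have hkK : ∀ (τ : ℍ) (m : ℕ), (τ : ℂ) ∈ ball (ctr m) (rad m) → k τ = K m τ := by
    intro τ m hm
    have hle : Nat.find (hex τ) ≤ m := Nat.find_min' (hex τ) hm
    exact hcompat hle (Nat.find_spec (hex τ))
  have hkd : MDiff k := by
    rw [UpperHalfPlane.mdifferentiable_iff]
    intro z hz
    obtain ⟨m, hm⟩ := exists_mem_ball hz
    have h1 : DifferentiableAt ℂ (K m) z := (hKd m).differentiableAt (isOpen_ball.mem_nhds hm)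
    have h2 : (k ∘ ofComplex) =ᶠ[𝓝 z] K m := by
      filter_upwards [isOpen_ball.mem_nhds hm] with w hw
      have hwpos : 0 < w.im := im_pos_of_mem_closedBall (ball_subset_closedBall hw)
      simp only [Function.comp_apply, ofComplex_apply_of_im_pos hwpos]
      exact hkK ⟨w, hwpos⟩ m hw
    exact (h1.congr_of_eventuallyEq h2).differentiableWithinAt
  refine ⟨⟨k, hkd⟩, ?_⟩
  apply HolFun.ext
  intro τ
  obtain ⟨m, hm⟩ := hex τ
  rw [HolFun.coe_pow_apply]
  show k τ ^ n = _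
  rw [hkK τ m hm, hKpow m τ hm]
  simp [hF]

end Fermat.Agent.Gateway.Root
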