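import Fermat.Agent.Gateway.Root.Nonvanishing

/-!
helper48 (P-GATEWAY WP-ROOT).  Holomorphic `n`-th roots on discs of analytic functions all of
whose zeros (on the closed disc) have order divisible by `n`.
-/

set_option autoImplicit false

open Complex Metric Set Filter Topology

namespace Fermat.Agent.Gateway.Root

/-- If two functions, continuous at `x`, agree on a punctured neighbourhood of `x`, they agree
at `x`. -/
theorem eq_of_eventuallyEq_nhdsNE {f g : ℂ → ℂ} {x : ℂ} (hf : ContinuousAt f x)
    (hg : ContinuousAt g x) (h : ∀ᶠ y in 𝓝[≠] x, f y = g y) : f x = g x := by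
  have h1 : Tendsto f (𝓝[≠] x) (𝓝 (f x)) := hf.tendsto.mono_left nhdsWithin_le_nhds
  have h2 : Tendsto g (𝓝[≠] x) (𝓝 (g x)) := hg.tendsto.mono_left nhdsWithin_le_nhds
  exact tendsto_nhds_unique_of_eventuallyEq h1 h2 h

/-- **Local roots.**  Let `g` be analytic on a neighbourhood of the closed disc, not locally zero,
with all orders of vanishing on the closed disc divisible by `n`.  Then `g` has a holomorphic
`n`-th root on the open disc. -/
theorem exists_root_on_ball {g : ℂ → ℂ} {c : ℂ} {r : ℝ}
    (hg : AnalyticOnNhd ℂ g (closedBall c r))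
    (hfin : ∀ z ∈ closedBall c r, analyticOrderAt g z ≠ ⊤) {n : ℕ} (hn : 0 < n)
    (hdiv : ∀ z ∈ closedBall c r, n ∣ analyticOrderNatAt g z) :
    ∃ k : ℂ → ℂ, DifferentiableOn ℂ k (ball c r) ∧ ∀ z ∈ ball c r, k z ^ n = g z := by
  classical
  set U : Set ℂ := closedBall c r with hU
  have hmer : MeromorphicOn g U := hg.meromorphicOn
  have h₂ : ∀ u : U, meromorphicOrderAt g u ≠ ⊤ := by
    rintro ⟨u, hu⟩
    rw [(hg u hu).meromorphicOrderAt_eq]
    intro h
    apply hfin u hu
    cases h' : analyticOrderAt g u with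
    | top => rfl
    | coe m => rw [h'] at h; simp at h
  set D := MeromorphicOn.divisor g U with hD
  have h₃ : D.support.Finite := D.finiteSupport (isCompact_closedBall c r)
  obtain ⟨G, hGa, hG0, hev⟩ := hmer.extract_zeros_poles h₂ h₃
  -- the exponents
  have hDval : ∀ u, D u = ((n * (analyticOrderNatAt g u / n) : ℕ) : ℤ) ∨ D u = 0 := by
    intro u
    by_cases hu : u ∈ U
    · left
      rw [hD, MeromorphicOn.AnalyticOnNhd.divisor_apply hg hu]
      have hne := hfin u hu
      obtain ⟨m, hm⟩ := ENat.ne_top_iff_exists.1 hne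
      rw [Nat.mul_div_cancel' (hdiv u hu), analyticOrderNatAt, ← hm]
      simp
    · right
      exact D.apply_eq_zero_of_notMem hu
  set m : ℂ → ℕ := fun u => if D u = 0 then 0 else analyticOrderNatAt g u / n with hm
  have hDm : ∀ u, D u = ((n * m u : ℕ) : ℤ) := by
    intro u
    by_cases h0 : D u = 0
    · simp [hm, h0]
    · rcases hDval u with h | h
      · simp only [hm, if_neg h0]; exact h
      · exact absurd h h0
  set s : Finset ℂ := h₃.toFinset with hs
  set P : ℂ → ℂ := fun x => ∏ u ∈ s, (x - u) ^ m u with hP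
  have hPd : Differentiable ℂ P := by
    apply Differentiable.fun_finsetProd
    intro u _
    fun_prop
  have hφ : ∀ x, (∏ᶠ u, (· - u) ^ D u : ℂ → ℂ) x = P x ^ n := by
    intro x
    rw [Function.FactorizedRational.finprod_eq_fun h₃]
    show ∏ᶠ (u : ℂ), (x - u) ^ D u = P x ^ n
    rw [finprod_eq_prod_of_mulSupport_subset (s := s)]
    · simp only [hP]
      rw [← Finset.prod_pow]
      apply Finset.prod_congr rfl
      intro u _
      rw [hDm u, zpow_natCast, mul_comm, pow_mul]
    · intro u hu
      simp only [hs, Finite.coe_toFinset, Function.mem_support]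
      intro h0
      apply hu
      simp [h0]
  -- the root of the nonvanishing factor
  have hGd : DifferentiableOn ℂ G (ball c r) :=
    (hGa.mono ball_subset_closedBall).differentiableOn
  obtain ⟨k₀, hk₀d, hk₀⟩ := exists_root_of_ne_zero_on_ball hGd
    (fun z hz => hG0 ⟨z, ball_subset_closedBall hz⟩) hn
  refine ⟨fun z => P z * k₀ z, hPd.differentiableOn.mul hk₀d, ?_⟩
  intro z hz
  have hzU : z ∈ U := ball_subset_closedBall hz
  -- equality on a punctured neighbourhood
  have hev' : ∀ᶠ y in 𝓝[≠] z, (P y * k₀ y) ^ n = g y := by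
    have h1 := (mem_codiscreteWithin.1 hev) z hzU
    rw [disjoint_principal_right] at h1
    have h2 : ∀ᶠ y in 𝓝[≠] z, y ∈ ball c r :=
      eventually_nhdsWithin_of_eventually_nhds (isOpen_ball.mem_nhds hz)
    filter_upwards [h1, h2] with y hy hyb
    have hyS : g y = ((∏ᶠ u, (· - u) ^ D u : ℂ → ℂ) • G) y := by
      by_contra hne
      exact hy ⟨ball_subset_closedBall hyb, hne⟩
    rw [hyS, Pi.smul_apply', smul_eq_mul, hφ y, mul_pow, hk₀ y hyb]
  have hc1 : ContinuousAt (fun y => (P y * k₀ y) ^ n) z :=
    ((hPd.continuous.continuousAt).mul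
      ((hk₀d.differentiableAt (isOpen_ball.mem_nhds hz)).continuousAt)).pow n
  exact eq_of_eventuallyEq_nhdsNE hc1 (hg z hzU).continuousAt hev'

end Fermat.Agent.Gateway.Root
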