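import Mathlib

/-!
helper48 (P-GATEWAY WP-ROOT).  Holomorphic `n`-th roots of nonvanishing holomorphic functions on
discs, and uniqueness of holomorphic `n`-th roots on preconnected open sets.
-/

set_option autoImplicit false

open Complex Metric Set Filter Topology

namespace Fermat.Agent.Gateway.Root

/-- A nonvanishing holomorphic function on a disc is `C * exp L` for a holomorphic `L`. -/
theorem exists_log_on_ball {G : ℂ → ℂ} {c : ℂ} {r : ℝ} (hG : DifferentiableOn ℂ G (ball c r))
    (hG0 : ∀ z ∈ ball c r, G z ≠ 0) :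
    ∃ L : ℂ → ℂ, DifferentiableOn ℂ L (ball c r) ∧ ∀ z ∈ ball c r, G z = G c * exp (L z) := by
  have hdG : DifferentiableOn ℂ (deriv G) (ball c r) := hG.deriv isOpen_ball
  have hquot : DifferentiableOn ℂ (fun z => deriv G z / G z) (ball c r) := hdG.div hG hG0
  obtain ⟨L, hLc, hL⟩ := (hquot.isExactOn_ball).with_val_at c 0
  have hLd : DifferentiableOn ℂ L (ball c r) :=
    fun z hz => (hL z hz).differentiableAt.differentiableWithinAt
  refine ⟨L, hLd, ?_⟩
  -- `G * exp (-L)` has zero derivative on the ball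
  set Φ : ℂ → ℂ := fun z => G z * exp (-L z) with hΦ
  have hΦd : ∀ z ∈ ball c r, HasDerivAt Φ 0 z := by
    intro z hz
    have h1 : HasDerivAt G (deriv G z) z :=
      (hG.differentiableAt (isOpen_ball.mem_nhds hz)).hasDerivAt
    have h2 : HasDerivAt (fun z => exp (-L z)) (exp (-L z) * -(deriv G z / G z)) z :=
      ((hL z hz).neg).cexp
    have h3 := h1.mul h2
    have e : deriv G z * exp (-L z) + G z * (exp (-L z) * -(deriv G z / G z)) = 0 := by
      have := hG0 z hz
      field_simp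
      ring
    rw [e] at h3
    exact h3
  intro z hz
  by_cases hr : 0 < r
  · have hc : c ∈ ball c r := mem_ball_self hr
    have hconst : Φ z = Φ c := by
      have hΦdiff : DifferentiableOn ℂ Φ (ball c r) :=
        fun w hw => (hΦd w hw).differentiableAt.differentiableWithinAt
      have := (convex_ball c r).is_const_of_fderivWithin_eq_zero (𝕜 := ℂ) hΦdiff
        (fun w hw => by
          rw [fderivWithin_of_isOpen isOpen_ball hw]
          have := (hΦd w hw).hasFDerivAt.fderiv
          rw [this]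
          ext; simp) hz hc
      exact this
    simp only [hΦ, hLc, neg_zero, exp_zero, mul_one] at hconst
    rw [← hconst, mul_assoc, ← exp_add, neg_add_cancel, exp_zero, mul_one]
  · exfalso
    rw [ball_eq_empty.2 (not_lt.1 hr)] at hz
    exact hz

/-- A nonvanishing holomorphic function on a disc has a holomorphic `n`-th root. -/
theorem exists_root_of_ne_zero_on_ball {G : ℂ → ℂ} {c : ℂ} {r : ℝ}
    (hG : DifferentiableOn ℂ G (ball c r)) (hG0 : ∀ z ∈ ball c r, G z ≠ 0) {n : ℕ} (hn : 0 < n) :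
    ∃ k : ℂ → ℂ, DifferentiableOn ℂ k (ball c r) ∧ ∀ z ∈ ball c r, k z ^ n = G z := by
  obtain ⟨L, hLd, hL⟩ := exists_log_on_ball hG hG0
  obtain ⟨w, hw⟩ : ∃ w : ℂ, w ^ n = G c := by
    have := IsAlgClosed.exists_pow_nat_eq (G c) hn
    exact this
  refine ⟨fun z => w * exp (L z / n), ?_, ?_⟩
  · exact (differentiableOn_const _).mul ((hLd.div_const _).cexp)
  · intro z hz
    have hn' : (n : ℂ) ≠ 0 := Nat.cast_ne_zero.2 hn.ne'
    rw [mul_pow, hw, ← exp_nat_mul, mul_div_cancel₀ _ hn', ← hL z hz]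

/-- Two holomorphic `n`-th roots of the same function on a preconnected open set which agree at
one point where they do not vanish are equal. -/
theorem root_unique {U : Set ℂ} (hU : IsOpen U) (hUc : IsPreconnected U) {k₁ k₂ : ℂ → ℂ}
    (h₁ : DifferentiableOn ℂ k₁ U) (h₂ : DifferentiableOn ℂ k₂ U) {n : ℕ} (hn : 0 < n)
    (hpow : ∀ z ∈ U, k₁ z ^ n = k₂ z ^ n) {z₀ : ℂ} (hz₀ : z₀ ∈ U) (heq : k₁ z₀ = k₂ z₀)
    (hne : k₁ z₀ ≠ 0) : EqOn k₁ k₂ U := by
  have ha₁ : AnalyticOnNhd ℂ k₁ U := h₁.analyticOnNhd hU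
  have ha₂ : AnalyticOnNhd ℂ k₂ U := h₂.analyticOnNhd hU
  apply ha₁.eqOn_of_preconnected_of_eventuallyEq ha₂ hUc hz₀
  -- the geometric sum is nonzero near `z₀`
  set S : ℂ → ℂ := fun z => ∑ i ∈ Finset.range n, k₁ z ^ i * k₂ z ^ (n - 1 - i) with hS
  have hSc : ContinuousAt S z₀ := by
    apply tendsto_finsetSum
    intro i _
    exact ((ha₁ z₀ hz₀).continuousAt.pow i).mul ((ha₂ z₀ hz₀).continuousAt.pow (n - 1 - i))
  have hS0 : S z₀ ≠ 0 := by
    have : S z₀ = n * k₁ z₀ ^ (n - 1) := by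
      simp only [hS, ← heq]
      rw [Finset.sum_congr rfl (fun i hi => by
        rw [← pow_add, Nat.add_sub_cancel' (by have := Finset.mem_range.1 hi; omega)]),
        Finset.sum_const, Finset.card_range, nsmul_eq_mul]
    rw [this]
    exact mul_ne_zero (Nat.cast_ne_zero.2 hn.ne') (pow_ne_zero _ hne)
  have hev : ∀ᶠ z in 𝓝 z₀, S z ≠ 0 := hSc.eventually_ne hS0
  filter_upwards [hev, hU.mem_nhds hz₀] with z hz hzU
  have := (Commute.all (k₁ z) (k₂ z)).geom_sum₂_mul n
  rw [hpow z hzU, sub_self] at this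
  rcases mul_eq_zero.1 this with h | h
  · exact absurd h hz
  · exact sub_eq_zero.1 h

end Fermat.Agent.Gateway.Root
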